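/-
S44 / F / Res (helper227): the norm of a finite field extension `L / K` of degree `n` is the product
over any family of (at least) `n` pairwise distinct `K`-embeddings of `L` into a field.  Mathlib only.
-/
import Mathlib

set_option autoImplicit false

namespace Fermat.Agent.S44.F.Res

open Module

theorem norm_eq_prod_of_injective_of_isAlgClosed {K L E ι : Type*} [Field K] [Field L] [Field E]
    [Algebra K L] [Algebra K E] [IsAlgClosed E] [FiniteDimensional K L] [Fintype ι]
    (σ : ι → (L →ₐ[K] E)) (hinj : Function.Injective σ) (hcard : finrank K L ≤ Fintype.card ι)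
    (x : L) : algebraMap K E (Algebra.norm K x) = ∏ i, σ i x := by
  classical
  have h1 : Field.finSepDegree K L = Nat.card (L →ₐ[K] E) :=
    Field.finSepDegree_eq_of_isAlgClosed K L E
  have h2 : Field.finSepDegree K L ≤ finrank K L := Field.finSepDegree_le_finrank K L
  have h3 : Fintype.card ι ≤ Fintype.card (L →ₐ[K] E) := Fintype.card_le_of_injective σ hinj
  rw [Nat.card_eq_fintype_card] at h1
  have h4 : Field.finSepDegree K L = finrank K L := by omega
  have hsep : Algebra.IsSeparable K L := (Field.finSepDegree_eq_finrank_iff K L).mp h4
  have hbij : Function.Bijective σ :=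
    (Fintype.bijective_iff_injective_and_card σ).mpr ⟨hinj, by omega⟩
  rw [Algebra.norm_eq_prod_embeddings K E x]
  exact (Fintype.prod_bijective σ hbij _ _ fun _ => rfl).symm

theorem norm_eq_prod_of_injective {K L F ι : Type*} [Field K] [Field L] [Field F]
    [Algebra K L] [Algebra K F] [FiniteDimensional K L] [Fintype ι]
    (σ : ι → (L →ₐ[K] F)) (hinj : Function.Injective σ) (hcard : finrank K L ≤ Fintype.card ι)
    (x : L) : algebraMap K F (Algebra.norm K x) = ∏ i, σ i x := by
  have h := norm_eq_prod_of_injective_of_isAlgClosed
    (fun i => (IsScalarTower.toAlgHom K F (AlgebraicClosure F)).comp (σ i))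
    (by
      intro i j hij
      apply hinj
      ext y
      have := congrArg (fun f : L →ₐ[K] AlgebraicClosure F => f y) hij
      exact (algebraMap F (AlgebraicClosure F)).injective (by simpa using this))
    hcard x
  apply (algebraMap F (AlgebraicClosure F)).injective
  rw [← IsScalarTower.algebraMap_apply, h, map_prod]
  rfl

end Fermat.Agent.S44.F.Res
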