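/-
S44 / F / Res (helper227): **(RES-1)**, the Mathlib-only core of the residue theorem used in FDual.

`κ` a field embedded (by `e`) in `k((q))`, `k` algebraically closed; `x ∈ κ` has a pole of order
`r` (invertible in `k`) at `q = 0`, `[κ : K₀] ≤ r` where `K₀ ⊆ k(x)`; some `y ∈ κ` has `q`-order
`± 1`.  If `θ (N_{κ/K₀} u) = 0` (e.g. the norm is a constant times a `p`-th power, `char k = p`)
then the constant term of `x · θ u / u` vanishes.

Proof: change the uniformiser so that `x = t ^ (-r)`; the `r` embeddings `t ↦ ζ t` of `κ` over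
`K₀` are pairwise distinct (look at `y`), so the norm is the product over them; take `dlog`;
the sum over the `r`-th roots of unity picks the coefficients of index divisible by `r`;
the residue is invariant under the change of uniformiser.
-/
import Fermat.Agent.Lib.LaurentSubst.Root
import Fermat.Agent.Lib.LaurentSubst.Scale
import Fermat.Agent.S44.F.Theta
import Fermat.Agent.S44.F.Res.NormProd

set_option autoImplicit false

namespace Fermat.Agent.S44.F.Res

open Fermat.Agent.Lib

theorem theta_eq_lib {R : Type*} [CommRing R] (f : LaurentSeries R) :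
    theta R f = LaurentSubst.theta f := by
  ext n
  rfl

variable {k : Type*} [Field k]

theorem dl_eq_lib (f : LaurentSeries k) : dl f = LaurentSubst.theta f / f := by
  rw [dl, theta_eq_lib]

theorem dl_prod {ι : Type*} (s : Finset ι) (f : ι → LaurentSeries k) (hf : ∀ i ∈ s, f i ≠ 0) :
    dl (∏ i ∈ s, f i) = ∑ i ∈ s, dl (f i) := by
  classical
  induction s using Finset.induction_on with
  | empty => simp
  | insert a s ha ih =>
    rw [Finset.prod_insert ha, Finset.sum_insert ha,
      dl_mul (hf a (Finset.mem_insert_self a s))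
        (Finset.prod_ne_zero_iff.mpr fun i hi => hf i (Finset.mem_insert_of_mem hi)),
      ih fun i hi => hf i (Finset.mem_insert_of_mem hi)]

theorem dl_scale (z : kˣ) (f : LaurentSeries k) :
    dl (LaurentSubst.scale z f) = LaurentSubst.scale z (dl f) := by
  rw [dl_eq_lib, dl_eq_lib, LaurentSubst.theta_scale, map_div₀]

/-- two ring homomorphisms which agree on the constants and on `X` agree on `k(X)` -/
theorem eq_of_mem_closure {F : Type*} [Field F] (φ ψ : LaurentSeries k →+* F)
    (X : LaurentSeries k) (hC : ∀ c : k, φ (HahnSeries.C c) = ψ (HahnSeries.C c))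
    (hX : φ X = ψ X) {a : LaurentSeries k}
    (ha : a ∈ Subfield.closure (Set.range (HahnSeries.C : k → LaurentSeries k) ∪ {X})) :
    φ a = ψ a := by
  have : Subfield.closure (Set.range (HahnSeries.C : k → LaurentSeries k) ∪ {X}) ≤
      φ.eqLocusField ψ := by
    rw [Subfield.closure_le]
    rintro b (⟨c, rfl⟩ | hb)
    · exact hC c
    · rw [Set.mem_singleton_iff] at hb
      subst hb
      exact hX
  exact this ha

/-- **(RES-1)** -/
theorem res_core [IsAlgClosed k] {K₀ κ : Type*} [Field K₀] [Field κ] [Algebra K₀ κ]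
    [FiniteDimensional K₀ κ] (e : κ →+* LaurentSeries k) (x y u : κ) (r : ℕ) (hr : 0 < r) (hrk : (r : k) ≠ 0)
    (hx : (e x).order = -(r : ℤ)) (hy : (e y).order = -1 ∨ (e y).order = 1)
    (hK₀ : ∀ a : K₀, e (algebraMap K₀ κ a) ∈
      Subfield.closure (Set.range (HahnSeries.C : k → LaurentSeries k) ∪ {e x}))
    (hdeg : Module.finrank K₀ κ ≤ r) (hu : u ≠ 0)
    (hN : theta k (e (algebraMap K₀ κ (Algebra.norm K₀ u))) = 0) :
    (e x * dl (e u)).coeff 0 = 0 := by
  classical
  obtain ⟨ρ, h0, hne, h1, hS⟩ := LaurentSubst.exists_substL_eq_single (e x) r hr hrk hx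
  set S := LaurentSubst.substL ρ h0 hne with hSdef
  have : NeZero (r : k) := ⟨hrk⟩
  obtain ⟨ζ₀, hζ₀⟩ := HasEnoughRootsOfUnity.exists_primitiveRoot k r
  have hζ₀ne : ζ₀ ≠ 0 := hζ₀.ne_zero hr.ne'
  set ζ : kˣ := Units.mk0 ζ₀ hζ₀ne with hζdef
  have hζ : IsPrimitiveRoot ζ r := IsPrimitiveRoot.coe_units_iff.mp (by simpa [hζdef] using hζ₀)
  let _ : Algebra K₀ (LaurentSeries k) := (S.comp (e.comp (algebraMap K₀ κ))).toAlgebra
  -- the embeddings
  have hfix : ∀ (i : ℕ) (a : K₀), LaurentSubst.scale (ζ ^ i) (S (e (algebraMap K₀ κ a))) =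
      S (e (algebraMap K₀ κ a)) := by
    intro i a
    refine eq_of_mem_closure ((LaurentSubst.scale (ζ ^ i)).comp S) S (e x) ?_ ?_ (hK₀ a)
    · intro c
      rw [RingHom.comp_apply, hSdef, LaurentSubst.substL_C, LaurentSubst.scale_C]
    · rw [RingHom.comp_apply, hS, LaurentSubst.scale_single]
      congr 1
      have : (ζ ^ i) ^ (-(r : ℤ)) = 1 := by
        rw [zpow_neg, zpow_natCast, ← pow_mul, mul_comm, pow_mul, hζ.pow_eq_one, one_pow, inv_one]
      rw [this, Units.val_one, one_mul]
  let σ : Fin r → (κ →ₐ[K₀] LaurentSeries k) := fun i =>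
    { toRingHom := (LaurentSubst.scale (ζ ^ (i : ℕ))).comp (S.comp e)
      commutes' := fun a => hfix i a }
  have hσ : ∀ (i : Fin r) (z : κ), σ i z = LaurentSubst.scale (ζ ^ (i : ℕ)) (S (e z)) :=
    fun _ _ => rfl
  -- they are pairwise distinct
  have hinj : Function.Injective σ := by
    intro i j hij
    have h2 : LaurentSubst.scale (ζ ^ (i : ℕ)) (S (e y)) =
        LaurentSubst.scale (ζ ^ (j : ℕ)) (S (e y)) := by
      rw [← hσ, ← hσ, hij]
    have hord : (S (e y)).order = (e y).order := LaurentSubst.order_substL ρ h0 hne h1 (e y)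
    have hy0 : e y ≠ 0 := by
      intro h
      rw [h, HahnSeries.order_zero] at hy
      omega
    have hc : (S (e y)).coeff (e y).order ≠ 0 := by
      rw [← hord]
      exact fun h => (map_ne_zero S).mpr hy0 (HahnSeries.coeff_order_eq_zero.mp h)
    have h3 := congrArg (fun g => HahnSeries.coeff g (e y).order) h2
    simp only [LaurentSubst.coeff_scale] at h3
    have h4 : (ζ ^ (i : ℕ)) ^ (e y).order = (ζ ^ (j : ℕ)) ^ (e y).order :=
      Units.ext (mul_right_cancel₀ hc h3)
    have h5 : ζ ^ (i : ℕ) = ζ ^ (j : ℕ) := by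
      rcases hy with h | h
      · rw [h, zpow_neg_one, zpow_neg_one] at h4
        exact inv_injective h4
      · rw [h, zpow_one, zpow_one] at h4
        exact h4
    exact Fin.ext (hζ.pow_inj i.2 j.2 h5)
  -- the norm is the product
  have hnorm := norm_eq_prod_of_injective σ hinj (by rw [Fintype.card_fin]; exact hdeg) u
  have halg : algebraMap K₀ (LaurentSeries k) (Algebra.norm K₀ u) =
      S (e (algebraMap K₀ κ (Algebra.norm K₀ u))) := rfl
  set U := S (e u) with hU
  have hU0 : U ≠ 0 := (map_ne_zero S).mpr ((map_ne_zero e).mpr hu)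
  -- `θ` of the norm vanishes after the substitution
  have hθ : dl (S (e (algebraMap K₀ κ (Algebra.norm K₀ u)))) = 0 := by
    have h2 := LaurentSubst.theta_substL ρ h0 hne (e (algebraMap K₀ κ (Algebra.norm K₀ u)))
    rw [← theta_eq_lib (e _), hN, map_zero, zero_mul] at h2
    rcases mul_eq_zero.mp h2 with h | h
    · rw [dl_eq_lib, ← hSdef] at *
      rw [h, zero_div]
    · exact absurd h (LaurentSubst.ofPowerSeries_ne_zero hne)
  rw [← halg, hnorm, dl_prod _ _ (fun i _ => by
    rw [hσ]; exact (map_ne_zero _).mpr hU0)] at hθ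
  have hsum : ∑ i ∈ Finset.range r, LaurentSubst.scale (ζ ^ i) (dl U) = 0 := by
    rw [← Fin.sum_univ_eq_sum_range (fun i => LaurentSubst.scale (ζ ^ i) (dl U)) r, ← hθ]
    refine Finset.sum_congr rfl fun i _ => ?_
    rw [hσ, dl_scale]
  have hcoeff := LaurentSubst.coeff_sum_scale hr hζ (dl U) (r : ℤ)
  rw [hsum, HahnSeries.coeff_zero, if_pos (dvd_refl _)] at hcoeff
  have hUr : (dl U).coeff (r : ℤ) = 0 := by
    rcases mul_eq_zero.mp hcoeff.symm with h | h
    · exact absurd h hrk
    · exact h
  -- invariance of the residue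
  have hinv := LaurentSubst.coeff_zero_mul_dlog_substL ρ h0 hne h1 (e x) (e u)
  rw [← dl_eq_lib, ← dl_eq_lib, ← hSdef, hS, ← hU, HahnSeries.coeff_single_mul, one_mul] at hinv
  rw [← hinv]
  simpa using hUr

/-- (RES-1) when the norm is a constant times a `p`-th power, `char k = p`. -/
theorem res_core_pow [IsAlgClosed k] (p : ℕ) [CharP k p] {K₀ κ : Type*} [Field K₀] [Field κ]
    [Algebra K₀ κ] [FiniteDimensional K₀ κ] (e : κ →+* LaurentSeries k) (x y u : κ) (r : ℕ)
    (hr : 0 < r)
    (hrk : (r : k) ≠ 0) (hx : (e x).order = -(r : ℤ))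
    (hy : (e y).order = -1 ∨ (e y).order = 1)
    (hK₀ : ∀ a : K₀, e (algebraMap K₀ κ a) ∈
      Subfield.closure (Set.range (HahnSeries.C : k → LaurentSeries k) ∪ {e x}))
    (hdeg : Module.finrank K₀ κ ≤ r) (hu : u ≠ 0)
    (hN : ∃ (c : k) (w : LaurentSeries k),
      e (algebraMap K₀ κ (Algebra.norm K₀ u)) = HahnSeries.C c * w ^ p) :
    (e x * dl (e u)).coeff 0 = 0 := by
  refine res_core e x y u r hr hrk hx hy hK₀ hdeg hu ?_
  obtain ⟨c, w, h⟩ := hN
  rw [h, theta_mul, theta_C, theta_pow_char, zero_mul, mul_zero, add_zero]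

/-- (RES-1) for an intermediate field `k ⊆ κ ⊆ k((q))` and `K₀ = k(x)`. -/
theorem res_core_intermediateField [IsAlgClosed k] (κ : IntermediateField k (LaurentSeries k))
    (x y u : κ) (r : ℕ) (hr : 0 < r) (hrk : (r : k) ≠ 0)
    (hx : (x : LaurentSeries k).order = -(r : ℤ))
    (hy : (y : LaurentSeries k).order = -1 ∨ (y : LaurentSeries k).order = 1)
    [FiniteDimensional (IntermediateField.adjoin k {x}) κ]
    (hdeg : Module.finrank (IntermediateField.adjoin k {x}) κ ≤ r) (hu : u ≠ 0)
    (hN : theta k (((Algebra.norm (IntermediateField.adjoin k {x}) u :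
      IntermediateField.adjoin k {x}) : κ) : LaurentSeries k) = 0) :
    ((x : LaurentSeries k) * dl (u : LaurentSeries k)).coeff 0 = 0 := by
  refine res_core (K₀ := IntermediateField.adjoin k {x}) (algebraMap κ (LaurentSeries k)) x y u r
    hr hrk hx hy ?_ hdeg hu hN
  rintro ⟨a, ha⟩
  show ((a : κ) : LaurentSeries k) ∈ _
  induction ha using IntermediateField.adjoin_induction with
  | mem z hz =>
    rw [Set.mem_singleton_iff] at hz
    subst hz
    exact Subfield.subset_closure (Or.inr rfl)
  | algebraMap c =>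
    refine Subfield.subset_closure (Or.inl ⟨c, ?_⟩)
    exact (LaurentSubst.algebraMap_eq_C c).symm
  | add z w _ _ hz hw => exact add_mem hz hw
  | inv z _ hz => exact inv_mem hz
  | mul z w _ _ hz hw => exact mul_mem hz hw

end Fermat.Agent.S44.F.Res
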