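/-
S44 / F / Res (helper227): **(RES)** in the shape requested by helper100 (#4351).
-/
import Fermat.Agent.S44.F.Res.Core

set_option autoImplicit false

namespace Fermat.Agent.S44.F

open IntermediateField

theorem res_core {k E : Type*} [Field k] [IsAlgClosed k] [Field E] [Algebra k E] (p : ℕ)
    [Fact p.Prime] [CharP k p] (ι : E →ₐ[k] LaurentSeries k) (x y u : E) (r : ℕ) (hr : 0 < r)
    (hpr : ¬ p ∣ r) (hx : (ι x).order = -(r : ℤ)) (hy : (ι y).order = 1)
    [FiniteDimensional k⟮x⟯ E] (hdeg : Module.finrank k⟮x⟯ E ≤ r) (hu : u ≠ 0)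
    (hN : ∃ (c : k) (z : k⟮x⟯), Algebra.norm k⟮x⟯ u = algebraMap k k⟮x⟯ c * z ^ p) :
    (ι x * dl (ι u)).coeff 0 = 0 := by
  have hrk : (r : k) ≠ 0 := fun h => hpr ((CharP.cast_eq_zero_iff k p r).mp h)
  refine Res.res_core_pow (K₀ := k⟮x⟯) p (ι : E →+* LaurentSeries k) x y u r hr hrk hx (Or.inr hy)
    ?_ hdeg hu ?_
  · rintro ⟨a, ha⟩
    show ι a ∈ _
    induction ha using IntermediateField.adjoin_induction with
    | mem z hz =>
      rw [Set.mem_singleton_iff] at hz
      subst hz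
      exact Subfield.subset_closure (Or.inr rfl)
    | algebraMap c =>
      refine Subfield.subset_closure (Or.inl ⟨c, ?_⟩)
      rw [AlgHom.commutes]
      exact (Fermat.Agent.Lib.LaurentSubst.algebraMap_eq_C c).symm
    | add z w _ _ hz hw => rw [map_add]; exact add_mem hz hw
    | inv z _ hz => rw [map_inv₀]; exact inv_mem hz
    | mul z w _ _ hz hw => rw [map_mul]; exact mul_mem hz hw
  · obtain ⟨c, z, h⟩ := hN
    refine ⟨c, ι (z : E), ?_⟩
    rw [h, map_mul, map_pow, RingHom.coe_coe, map_mul, map_pow,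
      ← IsScalarTower.algebraMap_apply k k⟮x⟯ E, AlgHom.commutes,
      Fermat.Agent.Lib.LaurentSubst.algebraMap_eq_C]
    rfl

end Fermat.Agent.S44.F
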