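/-
S44 / F / Res (helper227): in the situation of (RES-1) the extension `κ / K₀` is separable
(there are `r ≥ [κ : K₀]` pairwise distinct embeddings), and `x` is transcendental.
-/
import Fermat.Agent.S44.F.Res.Core

set_option autoImplicit false

namespace Fermat.Agent.S44.F.Res

open Fermat.Agent.Lib Module

theorem isSeparable_of_injective {K L F ι : Type*} [Field K] [Field L] [Field F]
    [Algebra K L] [Algebra K F] [FiniteDimensional K L] [Fintype ι]
    (σ : ι → (L →ₐ[K] F)) (hinj : Function.Injective σ) (hcard : finrank K L ≤ Fintype.card ι) :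
    Algebra.IsSeparable K L := by
  classical
  have h1 : Field.finSepDegree K L = Nat.card (L →ₐ[K] AlgebraicClosure F) :=
    Field.finSepDegree_eq_of_isAlgClosed K L (AlgebraicClosure F)
  have h2 : Field.finSepDegree K L ≤ finrank K L := Field.finSepDegree_le_finrank K L
  have h3 : Fintype.card ι ≤ Fintype.card (L →ₐ[K] AlgebraicClosure F) :=
    Fintype.card_le_of_injective
      (fun i => (IsScalarTower.toAlgHom K F (AlgebraicClosure F)).comp (σ i)) (by
        intro i j hij
        apply hinj
        ext y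
        have := congrArg (fun f : L →ₐ[K] AlgebraicClosure F => f y) hij
        exact (algebraMap F (AlgebraicClosure F)).injective (by simpa using this))
  rw [Nat.card_eq_fintype_card] at h1
  exact (Field.finSepDegree_eq_finrank_iff K L).mp (by omega)

variable {k : Type*} [Field k]

theorem isSeparable_core [IsAlgClosed k] {K₀ κ : Type*} [Field K₀] [Field κ] [Algebra K₀ κ]
    [FiniteDimensional K₀ κ] (e : κ →+* LaurentSeries k) (x y : κ) (r : ℕ) (hr : 0 < r)
    (hrk : (r : k) ≠ 0) (hx : (e x).order = -(r : ℤ))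
    (hy : (e y).order = -1 ∨ (e y).order = 1)
    (hK₀ : ∀ a : K₀, e (algebraMap K₀ κ a) ∈
      Subfield.closure (Set.range (HahnSeries.C : k → LaurentSeries k) ∪ {e x}))
    (hdeg : Module.finrank K₀ κ ≤ r) : Algebra.IsSeparable K₀ κ := by
  classical
  obtain ⟨ρ, h0, hne, h1, hS⟩ := LaurentSubst.exists_substL_eq_single (e x) r hr hrk hx
  set S := LaurentSubst.substL ρ h0 hne with hSdef
  have : NeZero (r : k) := ⟨hrk⟩
  obtain ⟨ζ₀, hζ₀⟩ := HasEnoughRootsOfUnity.exists_primitiveRoot k r
  have hζ₀ne : ζ₀ ≠ 0 := hζ₀.ne_zero hr.ne'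
  set ζ : kˣ := Units.mk0 ζ₀ hζ₀ne with hζdef
  have hζ : IsPrimitiveRoot ζ r := IsPrimitiveRoot.coe_units_iff.mp (by simpa [hζdef] using hζ₀)
  let _ : Algebra K₀ (LaurentSeries k) := (S.comp (e.comp (algebraMap K₀ κ))).toAlgebra
  have hfix : ∀ (i : ℕ) (a : K₀), LaurentSubst.scale (ζ ^ i) (S (e (algebraMap K₀ κ a))) =
      S (e (algebraMap K₀ κ a)) := by
    intro i a
    refine eq_of_mem_closure ((LaurentSubst.scale (ζ ^ i)).comp S) S (e x) ?_ ?_ (hK₀ a)
    · intro c
      rw [RingHom.comp_apply, hSdef, LaurentSubst.substL_C, LaurentSubst.scale_C]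
    · rw [RingHom.comp_apply, hS, LaurentSubst.scale_single]
      congr 1
      have : (ζ ^ i) ^ (-(r : ℤ)) = 1 := by
        rw [zpow_neg, zpow_natCast, ← pow_mul, mul_comm, pow_mul, hζ.pow_eq_one, one_pow, inv_one]
      rw [this, Units.val_one, one_mul]
  let σ : Fin r → (κ →ₐ[K₀] LaurentSeries k) := fun i =>
    { toRingHom := (LaurentSubst.scale (ζ ^ (i : ℕ))).comp (S.comp e)
      commutes' := fun a => hfix i a }
  have hσ : ∀ (i : Fin r) (z : κ), σ i z = LaurentSubst.scale (ζ ^ (i : ℕ)) (S (e z)) :=
    fun _ _ => rfl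
  have hinj : Function.Injective σ := by
    intro i j hij
    have h2 : LaurentSubst.scale (ζ ^ (i : ℕ)) (S (e y)) =
        LaurentSubst.scale (ζ ^ (j : ℕ)) (S (e y)) := by
      rw [← hσ, ← hσ, hij]
    have hord : (S (e y)).order = (e y).order := LaurentSubst.order_substL ρ h0 hne h1 (e y)
    have hy0 : e y ≠ 0 := by
      intro h
      rw [h, HahnSeries.order_zero] at hy
      omega
    have hc : (S (e y)).coeff (e y).order ≠ 0 := by
      rw [← hord]
      exact fun h => (map_ne_zero S).mpr hy0 (HahnSeries.coeff_order_eq_zero.mp h)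
    have h3 := congrArg (fun g => HahnSeries.coeff g (e y).order) h2
    simp only [LaurentSubst.coeff_scale] at h3
    have h4 : (ζ ^ (i : ℕ)) ^ (e y).order = (ζ ^ (j : ℕ)) ^ (e y).order :=
      Units.ext (mul_right_cancel₀ hc h3)
    have h5 : ζ ^ (i : ℕ) = ζ ^ (j : ℕ) := by
      rcases hy with h | h
      · rw [h, zpow_neg_one, zpow_neg_one] at h4
        exact inv_injective h4
      · rw [h, zpow_one, zpow_one] at h4
        exact h4
    exact Fin.ext (hζ.pow_inj i.2 j.2 h5)
  exact isSeparable_of_injective σ hinj (by rw [Fintype.card_fin]; exact hdeg)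

/-- an element whose expansion has nonzero order is transcendental over the algebraically closed
field of constants -/
theorem transcendental_of_order_ne_zero [IsAlgClosed k] {E : Type*} [Field E] [Algebra k E]
    (ι : E →ₐ[k] LaurentSeries k) (x : E) (hx : (ι x).order ≠ 0) : Transcendental k x := by
  intro halg
  have hirr := minpoly.irreducible halg.isIntegral
  have hdeg := IsAlgClosed.degree_eq_one_of_irreducible k hirr
  obtain ⟨c, rfl⟩ := minpoly.mem_range_of_degree_eq_one k x hdeg
  apply hx
  rw [AlgHom.commutes, LaurentSubst.algebraMap_eq_C]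
  exact HahnSeries.order_C

end Fermat.Agent.S44.F.Res
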