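/-
S44 / F / Res (helper227): **(RES) = (RES-1) + (RES-2)**:  the "residue theorem" needed in FDual.

`k` algebraically closed of characteristic `p`, `E / k` a field with an embedding `ι` in `k((q))`,
`x ∈ E` with a pole of order `r` at `q = 0`, `p ∤ r`, `[E : k(x)] ≤ r`, `y ∈ E` of `q`-order one.
If `p ∣ ord_v u` at ALL places `v` of `E / k` then the constant term of `x · θ u / u` vanishes.
-/
import Fermat.Agent.S44.F.Res.Res
import Fermat.Agent.S44.F.Res.Sep
import Fermat.Agent.S44.F.Res.NormPow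

set_option autoImplicit false

namespace Fermat.Agent.S44.F

open IntermediateField AlgebraicCurve

theorem mem_closure_of_mem_adjoin {k E : Type*} [Field k] [Field E] [Algebra k E]
    (ι : E →ₐ[k] LaurentSeries k) (x : E) (a : k⟮x⟯) :
    (ι : E →+* LaurentSeries k) (algebraMap k⟮x⟯ E a) ∈
      Subfield.closure (Set.range (HahnSeries.C : k → LaurentSeries k) ∪
        {(ι : E →+* LaurentSeries k) x}) := by
  obtain ⟨a, ha⟩ := a
  show ι a ∈ _
  induction ha using IntermediateField.adjoin_induction with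
  | mem z hz =>
    rw [Set.mem_singleton_iff] at hz
    subst hz
    exact Subfield.subset_closure (Or.inr rfl)
  | algebraMap c =>
    refine Subfield.subset_closure (Or.inl ⟨c, ?_⟩)
    rw [AlgHom.commutes]
    exact (Fermat.Agent.Lib.LaurentSubst.algebraMap_eq_C c).symm
  | add z w _ _ hz hw => rw [map_add]; exact add_mem hz hw
  | inv z _ hz => rw [map_inv₀]; exact inv_mem hz
  | mul z w _ _ hz hw => rw [map_mul]; exact mul_mem hz hw

theorem res_main {k E : Type*} [Field k] [IsAlgClosed k] [Field E] [Algebra k E] (p : ℕ)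
    [Fact p.Prime] [CharP k p] (ι : E →ₐ[k] LaurentSeries k) (x y u : E) (r : ℕ) (hr : 0 < r)
    (hpr : ¬ p ∣ r) (hx : (ι x).order = -(r : ℤ)) (hy : (ι y).order = 1)
    [FiniteDimensional k⟮x⟯ E] (hdeg : Module.finrank k⟮x⟯ E ≤ r) (hu : u ≠ 0)
    (hdiv : ∀ v : Place k E, (p : ℤ) ∣ v.ord u) :
    (ι x * dl (ι u)).coeff 0 = 0 := by
  have hrk : (r : k) ≠ 0 := fun h => hpr ((CharP.cast_eq_zero_iff k p r).mp h)
  have hsep : Algebra.IsSeparable k⟮x⟯ E :=
    Res.isSeparable_core (K₀ := k⟮x⟯) (ι : E →+* LaurentSeries k) x y r hr hrk hx (Or.inr hy)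
      (mem_closure_of_mem_adjoin ι x) hdeg
  have htr : Transcendental k x :=
    Res.transcendental_of_order_ne_zero ι x (by rw [hx]; omega)
  exact res_core p ι x y u r hr hpr hx hy hdeg hu
    (Res.exists_norm_eq_const_mul_pow p (Fact.out : p.Prime).pos x htr u hu hdiv)

end Fermat.Agent.S44.F
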