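/-
S44 / F / Res (helper227): **(RES-2), abstract part.**  `A` a PID with fraction field `K`, `L / K`
finite, `B` the integral closure of `A` in `L` (a Dedekind domain, finite over `A`).  If all the
`P`-adic valuations of `u ∈ Lˣ` are divisible by `p` then `N_{L/K} u = (unit of A) * z ^ p`.
Proof: `(b) = I ^ p` for `b = u * b₂ ^ p ∈ B`, and `Ideal.relNorm` is multiplicative.  Mathlib only.
-/
import Mathlib

set_option autoImplicit false

namespace Fermat.Agent.S44.F.Res

open IsDedekindDomain WithZero Module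

section Ded

variable {B : Type*} [CommRing B] [IsDedekindDomain B]

/-- a principal ideal all of whose multiplicities are divisible by `p` is a `p`-th power -/
theorem exists_ideal_pow_eq (p : ℕ) (b : B) (hb : b ≠ 0)
    (h : ∀ P : HeightOneSpectrum B,
      p ∣ (Associates.mk P.asIdeal).count (Associates.mk (Ideal.span {b})).factors) :
    ∃ I : Ideal B, Ideal.span {b} = I ^ p := by
  have h0 : Associates.mk (Ideal.span {b}) ≠ 0 := by
    rw [Associates.mk_ne_zero]
    simpa using hb
  obtain ⟨c, hc⟩ := Associates.is_pow_of_dvd_count h0 (k := p) (fun q hq => by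
    obtain ⟨Q, rfl⟩ := Associates.mk_surjective q
    have hQ : Irreducible Q := Associates.irreducible_mk.mp hq
    exact h ⟨Q, Ideal.isPrime_of_prime (UniqueFactorizationMonoid.irreducible_iff_prime.mp hQ),
      hQ.ne_zero⟩)
  obtain ⟨I, rfl⟩ := Associates.mk_surjective c
  refine ⟨I, ?_⟩
  rw [← Associates.mk_pow, Associates.mk_eq_mk_iff_associated, associated_iff_eq] at hc
  exact hc

end Ded

variable {A K L B : Type*} [CommRing A] [IsDomain A] [IsPrincipalIdealRing A] [Field K]
  [Algebra A K] [IsFractionRing A K] [Field L] [Algebra K L] [Algebra A L] [IsScalarTower A K L]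
  [FiniteDimensional K L] [CommRing B] [IsDedekindDomain B] [Algebra A B] [Algebra B L]
  [IsScalarTower A B L] [IsFractionRing B L] [IsIntegralClosure B A L] [Module.Finite A B]
  [IsTorsionFree A B]

theorem norm_eq_unit_mul_pow_of_mem (p : ℕ) (b : B) (hb : b ≠ 0)
    (h : ∀ P : HeightOneSpectrum B, (p : ℤ) ∣ log (P.valuation L (algebraMap B L b))) :
    ∃ (c : Aˣ) (g : A), Algebra.norm K (algebraMap B L b) =
      algebraMap A K c * algebraMap A K g ^ p := by
  obtain ⟨I, hI⟩ := exists_ideal_pow_eq p b hb (fun P => by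
    have h1 := h P
    rw [HeightOneSpectrum.valuation_of_algebraMap, HeightOneSpectrum.intValuation_if_neg _ hb,
      log_exp, dvd_neg] at h1
    exact_mod_cast h1)
  have h1 : Ideal.relNorm A (Ideal.span {b}) = (Ideal.relNorm A I) ^ p := by
    rw [hI, map_pow]
  obtain ⟨g, hg⟩ := IsPrincipalIdealRing.principal (Ideal.relNorm A I)
  rw [Ideal.relNorm_singleton, hg, ← Ideal.span, Ideal.span_singleton_pow,
    Ideal.span_singleton_eq_span_singleton] at h1
  obtain ⟨c, hc⟩ := h1.symm
  refine ⟨c, g, ?_⟩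
  rw [← Algebra.algebraMap_intNorm (A := A) (K := K) (L := L) (B := B), ← hc, map_mul, map_pow,
    mul_comm]

theorem norm_eq_unit_mul_pow (p : ℕ) (hp : 0 < p) (u : L) (hu : u ≠ 0)
    (h : ∀ P : HeightOneSpectrum B, (p : ℤ) ∣ log (P.valuation L u)) :
    ∃ (c : Aˣ) (z : K), Algebra.norm K u = algebraMap A K c * z ^ p := by
  obtain ⟨b₁, b₂, hb₂, rfl⟩ := IsFractionRing.div_surjective (A := B) u
  have hb₂0 : b₂ ≠ 0 := nonZeroDivisors.ne_zero hb₂
  have hb₂' : algebraMap B L b₂ ≠ 0 := by
    rw [Ne, IsFractionRing.to_map_eq_zero_iff]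
    exact hb₂0
  have hb₁0 : b₁ ≠ 0 := by
    rintro rfl
    simp at hu
  obtain ⟨q, rfl⟩ : ∃ q, p = q + 1 := ⟨p - 1, by omega⟩
  have e : algebraMap B L (b₁ * b₂ ^ q) =
      algebraMap B L b₁ / algebraMap B L b₂ * algebraMap B L b₂ ^ (q + 1) := by
    rw [map_mul, map_pow]
    field_simp
    ring
  obtain ⟨c, g, hg⟩ := norm_eq_unit_mul_pow_of_mem (A := A) (K := K) (L := L) (q + 1)
    (b₁ * b₂ ^ q) (mul_ne_zero hb₁0 (pow_ne_zero _ hb₂0)) (fun P => by
      rw [e, map_mul, map_pow, log_mul ((Valuation.ne_zero_iff _).mpr hu)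
        (pow_ne_zero _ ((Valuation.ne_zero_iff _).mpr hb₂')), log_pow]
      exact dvd_add (h P) ⟨_, by rw [nsmul_eq_mul]⟩)
  have hN : Algebra.norm K (algebraMap B L b₂) ≠ 0 := Algebra.norm_ne_zero_iff.mpr hb₂'
  refine ⟨c, algebraMap A K g / Algebra.norm K (algebraMap B L b₂), ?_⟩
  rw [e, map_mul, map_pow] at hg
  rw [div_pow, mul_div_assoc', ← hg]
  field_simp

end Fermat.Agent.S44.F.Res
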