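/-
S44 / F / Res (helper227): **(RES-2).**  `F / k` a field extension, `x ∈ F` transcendental with
`F / k(x)` finite separable.  If `p ∣ ord_v u` at all places `v` of `F / k` then
`N_{F/k(x)} u = c * z ^ p` with `c ∈ k`, `z ∈ k(x)`.  (Any field `k`, any `p > 0`.)
-/
import Fermat.Agent.S44.F.Res.NormPowAbs
import Fermat.Prelude.Def_AlgebraicCurve_DivisorClassGroup
import Fermat.Agent.S24.FFDict

set_option autoImplicit false

namespace Fermat.Agent.S44.F.Res

open AlgebraicCurve IsDedekindDomain IntermediateField WithZero Polynomial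
open scoped IntermediateField.algebraAdjoinAdjoin

theorem exists_norm_eq_const_mul_pow {k F : Type*} [Field k] [Field F] [Algebra k F] (p : ℕ)
    (hp : 0 < p) (x : F) (hx : Transcendental k x) [FiniteDimensional k⟮x⟯ F]
    [Algebra.IsSeparable k⟮x⟯ F] (u : F) (hu : u ≠ 0)
    (hdiv : ∀ v : Place k F, (p : ℤ) ∣ v.ord u) :
    ∃ (c : k) (z : k⟮x⟯), Algebra.norm k⟮x⟯ u = algebraMap k k⟮x⟯ c * z ^ p := by
  have hPID : IsPrincipalIdealRing (Algebra.adjoin k {x}) :=
    IsPrincipalIdealRing.of_surjective
      (Polynomial.algEquivOfTranscendental k x hx).toRingEquiv.toRingHom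
      (Polynomial.algEquivOfTranscendental k x hx).surjective
  have hDed : IsDedekindDomain (integralClosure (Algebra.adjoin k {x}) F) :=
    integralClosure.isDedekindDomain (Algebra.adjoin k {x}) k⟮x⟯ F
  have hFrac : IsFractionRing (integralClosure (Algebra.adjoin k {x}) F) F :=
    integralClosure.isFractionRing_of_finite_extension k⟮x⟯ F
  have hFin : Module.Finite (Algebra.adjoin k {x}) (integralClosure (Algebra.adjoin k {x}) F) :=
    IsIntegralClosure.finite (Algebra.adjoin k {x}) k⟮x⟯ F _
  obtain ⟨c, z, h⟩ := norm_eq_unit_mul_pow (A := Algebra.adjoin k {x}) (K := k⟮x⟯) (L := F)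
    (B := integralClosure (Algebra.adjoin k {x}) F) p hp u hu (fun P => by
      have := hdiv (Place.ofHeightOneSpectrum (K := k) P)
      rw [Fermat.Agent.S24.FF.ord_ofHeightOneSpectrum, dvd_neg] at this
      exact this)
  -- the unit `c` is a constant
  set e := Polynomial.algEquivOfTranscendental k x hx with he
  have hunit : IsUnit (e.symm (c : Algebra.adjoin k {x})) := c.isUnit.map e.symm
  obtain ⟨r, _, hr⟩ := Polynomial.isUnit_iff.mp hunit
  have hc : (c : Algebra.adjoin k {x}) = algebraMap k (Algebra.adjoin k {x}) r := by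
    have := congrArg e hr
    rw [AlgEquiv.apply_symm_apply, ← Polynomial.algebraMap_eq, AlgEquiv.commutes] at this
    exact this.symm
  refine ⟨r, z, ?_⟩
  rw [h, hc, ← IsScalarTower.algebraMap_apply]

end Fermat.Agent.S44.F.Res
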